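/-
S36, modular part, block BASE (owner helper167).  ABSTRACT FILE.

`R` is a local subring of a field `F`, integrally closed in `F`.  `Fin R y` says that `y` defines a
point of the projective line over `R`: `y ∈ R` or `y⁻¹ ∈ rad R`.  This property is transported
along polynomial maps `y ↦ p(y)` with unit leading coefficient, and along `G ↦ n(G) / G`.
-/
import Fermat.Agent.BAD.Model.Seidenberg

set_option autoImplicit false

namespace Fermat.Agent.S36.Mod.Base

open Fermat.Agent.S36.BP Fermat.Agent.BAD.Model Polynomial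

variable {F : Type*} [Field F] {R : Subring F}

/-- `R` is local and integrally closed in `F`. -/
structure LocNor (R : Subring F) : Prop where
  add_rad : ∀ a ∈ rad R, ∀ b ∈ rad R, a + b ∈ rad R
  intClosed : ∀ y : F, IsIntegral R y → y ∈ R

theorem _root_.Fermat.Agent.S36.BP.IsPt.locNor {K₀ : Type*} [Field K₀] [Algebra K₀ F]
    {A₀ : ValuationSubring K₀} (h : IsPt A₀ R) : LocNor R :=
  ⟨h.add_rad, h.intClosed⟩

/-- `y` is finite or infinite at `R`. -/
def Fin (R : Subring F) (y : F) : Prop := y ∈ R ∨ y⁻¹ ∈ rad R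

theorem fin_iff {y : F} : Fin R y ↔ (y ∈ R ∨ y⁻¹ ∈ R) := by
  constructor
  · rintro (h | h)
    · exact Or.inl h
    · exact Or.inr h.1
  · rintro (h | h)
    · exact Or.inl h
    · rcases runit_or_mem_rad h with hu | hr
      · left
        have := hu.inv_mem
        rwa [inv_inv] at this
      · exact Or.inr hr

theorem aeval_mem (p : R[X]) {w : F} (hw : w ∈ R) : aeval w p ∈ R := by
  have h := aeval_algebraMap_apply F (⟨w, hw⟩ : R) p
  have h2 : aeval w p = algebraMap R F (aeval (⟨w, hw⟩ : R) p) := h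
  rw [h2]
  exact Subtype.property _

theorem aeval_sub_coeff_zero_mem_rad (p : R[X]) {w : F} (hw : w ∈ rad R) :
    aeval w p - (p.coeff 0 : F) ∈ rad R := by
  have h : aeval w p = aeval w p.divX * w + (p.coeff 0 : F) := by
    conv_lhs => rw [← divX_mul_X_add p]
    rw [map_add, map_mul, aeval_X, aeval_C]
    rfl
  rw [h, add_sub_cancel_right]
  exact mul_mem_rad (aeval_mem _ hw.1) hw

theorem LocNor.runit_aeval (h : LocNor R) (p : R[X]) {w : F} (hw : w ∈ rad R)
    (h0 : RUnit R (p.coeff 0 : F)) : RUnit R (aeval w p) := by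
  have := Seidenberg.runit_add_of_rad h.add_rad h0 (aeval_sub_coeff_zero_mem_rad p hw)
  rwa [add_sub_cancel] at this

theorem isUnit_of_runit {a : R} (h : RUnit R (a : F)) : IsUnit a :=
  isUnit_iff_exists_inv.mpr ⟨⟨_, h.inv_mem⟩, Subtype.ext (mul_inv_cancel₀ h.ne_zero)⟩

/-- a root of a polynomial with unit leading coefficient lies in `R`. -/
theorem LocNor.mem_of_root (h : LocNor R) (p : R[X]) (hl : RUnit R (p.leadingCoeff : F)) {y : F}
    (hy : aeval y p = 0) : y ∈ R := by
  apply h.intClosed
  have hu : IsUnit p.leadingCoeff := isUnit_of_runit hl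
  refine ⟨hu.unit⁻¹ • p, monic_of_isUnit_leadingCoeff_inv_smul hu, ?_⟩
  rw [← aeval_def, Units.smul_def, map_smul, hy, smul_zero]

/-- `p(y) = (reverse p)(y⁻¹) y ^ deg p`. -/
theorem aeval_eq_reverse (p : R[X]) {y : F} (hy : y ≠ 0) :
    aeval y p = aeval y⁻¹ p.reverse * y ^ p.natDegree := by
  let _ : Invertible y := invertibleOfNonzero hy
  have h := eval₂_reverse_mul_pow (algebraMap R F) y p
  rw [invOf_eq_inv] at h
  rw [aeval_def, aeval_def, h]

theorem LocNor.runit_reverse (h : LocNor R) (p : R[X]) (hl : RUnit R (p.leadingCoeff : F)) {w : F}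
    (hw : w ∈ rad R) : RUnit R (aeval w p.reverse) :=
  h.runit_aeval _ hw (by rw [coeff_zero_reverse]; exact hl)

theorem pow_mem_rad' {w : F} (hw : w ∈ rad R) {k : ℕ} (hk : k ≠ 0) : w ^ k ∈ rad R :=
  Seidenberg.pow_mem_rad hw hk

/-- **Polynomial maps.** -/
theorem LocNor.fin_aeval_iff (h : LocNor R) (p : R[X]) (hm : p.natDegree ≠ 0)
    (hl : RUnit R (p.leadingCoeff : F)) (y : F) : Fin R (aeval y p) ↔ Fin R y := by
  have key : aeval y p ∈ R → y ∈ R := by
    -- `p - z` has the root `y`
    intro hz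
    have hdeg : (C (⟨_, hz⟩ : R)).degree < p.degree :=
      lt_of_le_of_lt degree_C_le (natDegree_pos_iff_degree_pos.mp (Nat.pos_of_ne_zero hm))
    refine h.mem_of_root (p - C ⟨_, hz⟩) ?_ ?_
    · rw [leadingCoeff_sub_of_degree_lt hdeg]
      exact hl
    · rw [map_sub, aeval_C]
      exact sub_self _
  constructor
  · rintro (hz | hz)
    · exact Or.inl (key hz)
    · -- `u p - 1` has the root `y`
      by_cases hz0 : aeval y p = 0
      · exact Or.inl (key (hz0 ▸ R.zero_mem))
      rw [fin_iff]
      refine seidenberg h.add_rad h.intClosed y (C (⟨_, hz.1⟩ : R) * p - 1) ?_ ⟨0, ?_⟩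
      · rw [map_sub, map_mul, aeval_C, map_one]
        show (aeval y p)⁻¹ * aeval y p - 1 = 0
        rw [inv_mul_cancel₀ hz0, sub_self]
      · rw [coeff_sub, coeff_C_mul, coeff_one_zero]
        have h1 : (((⟨_, hz.1⟩ : R) * p.coeff 0 - 1 : R) : F) =
            -1 + (p.coeff 0 : F) * (aeval y p)⁻¹ := by
          push_cast
          ring
        rw [h1]
        exact Seidenberg.runit_add_of_rad h.add_rad (RUnit.one R).neg
          (mul_mem_rad (Subtype.property _) hz)
  · rintro (hy | hy)
    · exact Or.inl (aeval_mem p hy)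
    · by_cases hy0 : y = 0
      · left
        rw [hy0]
        exact aeval_mem p R.zero_mem
      · right
        rw [aeval_eq_reverse p hy0, mul_inv, ← inv_pow]
        exact mul_mem_rad (h.runit_reverse p hl hy).inv_mem (pow_mem_rad' hy hm)

/-- **The map `G ↦ n(G) / G`.** -/
theorem LocNor.fin_iff_of_mul_eq (h : LocNor R) (n : R[X]) (hm : 2 ≤ n.natDegree)
    (hl : RUnit R (n.leadingCoeff : F)) (h0 : RUnit R (n.coeff 0 : F)) {J G : F}
    (hJG : J * G = aeval G n) : Fin R J ↔ Fin R G := by
  have hG0 : G ≠ 0 := by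
    rintro rfl
    rw [mul_zero, aeval_def, eval₂_at_zero] at hJG
    exact h0.ne_zero hJG.symm
  have key : J ∈ R → G ∈ R := by
    -- `n - J X` has the root `G`
    intro hJ
    have hdeg : (C (⟨_, hJ⟩ : R) * X).degree < n.degree := by
      refine lt_of_le_of_lt (degree_C_mul_X_le _) ?_
      rw [degree_eq_natDegree (by rintro rfl; simp at hm)]
      exact_mod_cast (by omega : 1 < n.natDegree)
    refine h.mem_of_root (n - C ⟨_, hJ⟩ * X) ?_ ?_
    · rw [leadingCoeff_sub_of_degree_lt hdeg]
      exact hl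
    · rw [map_sub, map_mul, aeval_C, aeval_X, ← hJG]
      exact sub_self _
  constructor
  · rintro (hJ | hJ)
    · exact Or.inl (key hJ)
    · by_cases hJ0 : J = 0
      · exact Or.inl (key (hJ0 ▸ R.zero_mem))
      -- `v n - X` has the root `G`
      rw [fin_iff]
      refine seidenberg h.add_rad h.intClosed G (C (⟨_, hJ.1⟩ : R) * n - X) ?_ ⟨1, ?_⟩
      · rw [map_sub, map_mul, aeval_C, aeval_X, ← hJG]
        show J⁻¹ * (J * G) - G = 0
        rw [inv_mul_cancel_left₀ hJ0, sub_self]
      · rw [coeff_sub, coeff_C_mul, coeff_X_one]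
        have h1 : (((⟨_, hJ.1⟩ : R) * n.coeff 1 - 1 : R) : F) = -1 + (n.coeff 1 : F) * J⁻¹ := by
          push_cast
          ring
        rw [h1]
        exact Seidenberg.runit_add_of_rad h.add_rad (RUnit.one R).neg
          (mul_mem_rad (Subtype.property _) hJ)
  · rintro (hG | hG)
    · rcases runit_or_mem_rad hG with hu | hr
      · left
        have : J = aeval G n * G⁻¹ := by rw [← hJG, mul_inv_cancel_right₀ hG0]
        rw [this]
        exact R.mul_mem (aeval_mem n hG) hu.inv_mem
      · right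
        have hn := h.runit_aeval n hr h0
        have : J⁻¹ = (aeval G n)⁻¹ * G := by
          rw [← hJG, mul_inv, mul_assoc, inv_mul_cancel₀ hG0, mul_one]
        rw [this]
        exact mul_mem_rad hn.inv_mem hr
    · right
      have hn := h.runit_reverse n hl hG
      obtain ⟨k, hk⟩ : ∃ k, n.natDegree = k + 2 := ⟨n.natDegree - 2, by omega⟩
      have : J⁻¹ = (aeval G⁻¹ n.reverse)⁻¹ * G⁻¹ ^ (k + 1) := by
        have h1 : J = aeval G⁻¹ n.reverse * G ^ (k + 1) := by
          have h2 := hJG
          rw [aeval_eq_reverse n hG0, hk, pow_succ, ← mul_assoc] at h2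
          exact mul_right_cancel₀ hG0 h2
        rw [h1, mul_inv, inv_pow]
      rw [this]
      exact mul_mem_rad hn.inv_mem (pow_mem_rad' hG (Nat.succ_ne_zero k))

end Fermat.Agent.S36.Mod.Base
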