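/-
S36, modular part, block BASE (owner helper167).  ABSTRACT FILE.

The relations between `j` and the Hauptmoduln `h₄`, `h₉` at a local normal ring `R`:
`j` is finite or infinite at `R` iff `h` is.
-/
import Fermat.Agent.S36.Mod.Base.Abs

set_option autoImplicit false

namespace Fermat.Agent.S36.Mod.Base

open Fermat.Agent.S36.BP Fermat.Agent.BAD.Model Polynomial

variable {F : Type*} [Field F] {R : Subring F}

theorem aeval_map_int (P : ℤ[X]) (y : F) :
    aeval y (P.map (Int.castRingHom R)) = aeval y P := by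
  rw [aeval_def, eval₂_map, aeval_def]
  exact congrArg (fun f => eval₂ f y P) (RingHom.ext_int _ _)

theorem castRingHom_ne_zero {a : ℤ} (h : RUnit R ((a : ℤ) : F)) : Int.castRingHom R a ≠ 0 := by
  intro h0
  apply h.ne_zero
  have := congrArg (Subtype.val : R → F) h0
  simpa using this

/-- polynomial maps with integer coefficients -/
theorem LocNor.fin_aeval_int_iff (h : LocNor R) (P : ℤ[X]) (hm : P.natDegree ≠ 0)
    (hl : RUnit R ((P.leadingCoeff : ℤ) : F)) (y : F) : Fin R (aeval y P) ↔ Fin R y := by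
  have h0 := castRingHom_ne_zero hl
  rw [← aeval_map_int (R := R)]
  refine h.fin_aeval_iff _ ?_ ?_ y
  · rw [natDegree_map_of_leadingCoeff_ne_zero _ h0]
    exact hm
  · rw [leadingCoeff_map_of_leadingCoeff_ne_zero _ h0]
    simpa using hl

/-- the map `G ↦ n(G) / G`, `n` with integer coefficients -/
theorem LocNor.fin_iff_of_mul_eq_int (h : LocNor R) (n : ℤ[X]) (hm : 2 ≤ n.natDegree)
    (hl : RUnit R ((n.leadingCoeff : ℤ) : F)) (h0 : n.coeff 0 = 1) {J G : F}
    (hJG : J * G = aeval G n) : Fin R J ↔ Fin R G := by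
  have hne := castRingHom_ne_zero hl
  rw [← aeval_map_int (R := R)] at hJG
  refine h.fin_iff_of_mul_eq _ ?_ ?_ ?_ hJG
  · rw [natDegree_map_of_leadingCoeff_ne_zero _ hne]
    exact hm
  · rw [leadingCoeff_map_of_leadingCoeff_ne_zero _ hne]
    simpa using hl
  · rw [coeff_map, h0]
    simpa using RUnit.one R

theorem runit_intCast_pow {a : ℤ} (h : RUnit R ((a : ℤ) : F)) (k : ℕ) :
    RUnit R (((a ^ k : ℤ) : ℤ) : F) := by
  rw [Int.cast_pow]
  exact h.pow k

/-- **Level 4.** -/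
theorem LocNor.fin_iff_level4 (h : LocNor R) (h2 : RUnit R (2 : F)) {J H : F}
    (hJH : J * (H * (1 + 16 * H)) = (1 + 256 * H + 4096 * H ^ 2) ^ 3) : Fin R J ↔ Fin R H := by
  have h2' : RUnit R (((2 : ℤ) : ℤ) : F) := by simpa using h2
  have hA : Fin R (aeval H (C 16 * X ^ 2 + C 1 * X + C 0 : ℤ[X])) ↔ Fin R H := by
    refine h.fin_aeval_int_iff _ ?_ ?_ H
    · rw [natDegree_quadratic (by norm_num)]
      norm_num
    · rw [leadingCoeff_quadratic (by norm_num)]
      exact runit_intCast_pow h2' 4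
  have hB : Fin R J ↔ Fin R (aeval H (C 16 * X ^ 2 + C 1 * X + C 0 : ℤ[X])) := by
    refine h.fin_iff_of_mul_eq_int ((C 256 * X + C 1) ^ 3) ?_ ?_ ?_ ?_
    · rw [natDegree_pow, natDegree_linear (by norm_num)]
      norm_num
    · rw [leadingCoeff_pow, leadingCoeff_linear (by norm_num)]
      exact runit_intCast_pow h2' 24
    · rw [coeff_zero_eq_eval_zero]
      simp
    · have e1 : aeval H (C 16 * X ^ 2 + C 1 * X + C 0 : ℤ[X]) = 16 * H ^ 2 + H := by simp [map_ofNat (aeval H)]
      have e2 : ∀ G : F, aeval G ((C 256 * X + C 1) ^ 3 : ℤ[X]) = (256 * G + 1) ^ 3 := by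
        intro G; simp [map_ofNat (aeval G)]
      rw [e2, e1]
      linear_combination hJH
  exact hB.trans hA

/-- **Level 9.** -/
theorem LocNor.fin_iff_level9 (h : LocNor R) (h3 : RUnit R (3 : F)) {J H : F}
    (hJH : J * (H * (1 + 9 * H + 27 * H ^ 2)) =
      (1 + 9 * H) ^ 3 * (1 + 243 * H + 2187 * H ^ 2 + 6561 * H ^ 3) ^ 3) :
    Fin R J ↔ Fin R H := by
  have h3' : RUnit R (((3 : ℤ) : ℤ) : F) := by simpa using h3
  have hA : Fin R (aeval H (C 27 * X ^ 3 + C 9 * X ^ 2 + C 1 * X + C 0 : ℤ[X])) ↔ Fin R H := by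
    refine h.fin_aeval_int_iff _ ?_ ?_ H
    · rw [natDegree_cubic (by norm_num)]
      norm_num
    · rw [leadingCoeff_cubic (by norm_num)]
      exact runit_intCast_pow h3' 3
  have hB : Fin R J ↔ Fin R (aeval H (C 27 * X ^ 3 + C 9 * X ^ 2 + C 1 * X + C 0 : ℤ[X])) := by
    have hd1 : (C 27 * X + C 1 : ℤ[X]).natDegree = 1 := natDegree_linear (by norm_num)
    have hd2 : (C 243 * X + C 1 : ℤ[X]).natDegree = 1 := natDegree_linear (by norm_num)
    have hn1 : (C 27 * X + C 1 : ℤ[X]) ≠ 0 := by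
      intro h0; rw [h0] at hd1; simp at hd1
    have hn2 : (C 243 * X + C 1 : ℤ[X]) ≠ 0 := by
      intro h0; rw [h0] at hd2; simp at hd2
    refine h.fin_iff_of_mul_eq_int ((C 27 * X + C 1) * (C 243 * X + C 1) ^ 3) ?_ ?_ ?_ ?_
    · rw [natDegree_mul hn1 (pow_ne_zero _ hn2), natDegree_pow, hd1, hd2]
      norm_num
    · rw [leadingCoeff_mul, leadingCoeff_pow, leadingCoeff_linear (by norm_num),
        leadingCoeff_linear (by norm_num)]
      exact runit_intCast_pow h3' 18
    · rw [coeff_zero_eq_eval_zero]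
      simp
    · have e1 : aeval H (C 27 * X ^ 3 + C 9 * X ^ 2 + C 1 * X + C 0 : ℤ[X]) =
          27 * H ^ 3 + 9 * H ^ 2 + H := by simp [map_ofNat (aeval H)]
      have e2 : ∀ G : F, aeval G ((C 27 * X + C 1) * (C 243 * X + C 1) ^ 3 : ℤ[X]) =
          (27 * G + 1) * (243 * G + 1) ^ 3 := by
        intro G; simp [map_ofNat (aeval G)]
      rw [e2, e1]
      linear_combination hJH
  exact hB.trans hA

end Fermat.Agent.S36.Mod.Base
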