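/-
S36, modular part, block BASE (owner helper167): `BaseRel` for the Hauptmoduln `h₄` (`q` odd) and
`h₉` (`q = 2`), `exists_base`, `sym_ab`, `sym_ba`.
-/
import Fermat.Agent.S36.Mod.InstDefs
import Fermat.Agent.S36.Mod.Base.Level
import Fermat.Agent.Lib.Hauptmodul49.Base
import Fermat.Agent.GAL.KLInputs.Base

set_option autoImplicit false
set_option linter.unusedSectionVars false

noncomputable section

namespace Fermat.Agent.S36.Mod.Setup

open ModularCurve Fermat.Agent.S24 Fermat.Agent.S18 Fermat.Agent.S36.BP Fermat.Agent.BAD.Model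
  Fermat.Agent.Lib.Hauptmodul Fermat.Agent.S36.Mod.Base

variable {K K' : Type*} [Field K] [Field K'] [Algebra ℚ K] [Algebra ℚ K'] [Algebra K Kbar]
  [Algebra K' Kbar] (S : Setup K K')

/-- an integer prime to `q` is a unit of `B`. -/
theorem valuation_natCast_eq_one {n : ℕ} (h : n.Coprime S.q) : S.B.valuation (n : K) = 1 := by
  have hn : S.B.valuation (n : K) ≤ 1 := (S.B.valuation_le_one_iff _).mpr (natCast_mem _ n)
  refine le_antisymm hn (not_lt.mp fun hlt => ?_)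
  have hq : S.B.valuation ((S.q : ℕ) : K) < 1 := by
    have h1 : ((S.q : ℕ) : S.B) ∈ IsLocalRing.maximalIdeal S.B := by
      rw [IsLocalRing.mem_maximalIdeal, mem_nonunits_iff]
      exact S.unif.not_isUnit
    have h2 := (S.B.valuation_lt_one_iff _).mp h1
    simpa using h2
  -- Bezout
  have hb : (n : ℤ) * Nat.gcdA n S.q + (S.q : ℤ) * Nat.gcdB n S.q = 1 := by
    have := Nat.gcd_eq_gcd_ab n S.q
    rw [h] at this
    exact_mod_cast this.symm
  have hb' : (n : K) * ((Nat.gcdA n S.q : ℤ) : K) + ((S.q : ℕ) : K) * ((Nat.gcdB n S.q : ℤ) : K) =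
      1 := by
    exact_mod_cast congrArg (Int.cast : ℤ → K) hb
  have hi : ∀ a : ℤ, S.B.valuation ((a : ℤ) : K) ≤ 1 := fun a =>
    (S.B.valuation_le_one_iff _).mpr (intCast_mem _ a)
  have h1 : S.B.valuation (1 : K) < 1 := by
    rw [← hb']
    refine Valuation.map_add_lt _ ?_ ?_
    · rw [map_mul]
      exact (mul_le_of_le_one_right' (hi _)).trans_lt hlt
    · rw [map_mul]
      exact (mul_le_of_le_one_right' (hi _)).trans_lt hq
  rw [map_one] at h1
  exact lt_irrefl _ h1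

theorem coe_j0 : ((S.j0 : S.F0) : LaurentSeries K) = jqModC K :=
  GAL.KLInputs.coeffEmb_jq

theorem j0_mul_h4 (h4 : 4 ∣ S.N0) :
    S.j0 * (h4K K S.N0 h4 * (1 + 16 * h4K K S.N0 h4)) =
      (1 + 256 * h4K K S.N0 h4 + 4096 * h4K K S.N0 h4 ^ 2) ^ 3 := by
  apply S.F0.val.injective
  simp only [map_mul, map_add, map_pow, map_one, map_ofNat]
  show (S.j0 : LaurentSeries K) * ((h4K K S.N0 h4 : LaurentSeries K) *
    (1 + 16 * (h4K K S.N0 h4 : LaurentSeries K))) = (1 + 256 * (h4K K S.N0 h4 : LaurentSeries K) +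
      4096 * (h4K K S.N0 h4 : LaurentSeries K) ^ 2) ^ 3
  rw [coe_j0, coe_h4K]
  exact jqModC_mul_h4 K

theorem j0_mul_h9 (h9 : 9 ∣ S.N0) :
    S.j0 * (h9K K S.N0 h9 * (1 + 9 * h9K K S.N0 h9 + 27 * h9K K S.N0 h9 ^ 2)) =
      (1 + 9 * h9K K S.N0 h9) ^ 3 * (1 + 243 * h9K K S.N0 h9 + 2187 * h9K K S.N0 h9 ^ 2 +
        6561 * h9K K S.N0 h9 ^ 3) ^ 3 := by
  apply S.F0.val.injective
  simp only [map_mul, map_add, map_pow, map_one, map_ofNat]
  show (S.j0 : LaurentSeries K) * ((h9K K S.N0 h9 : LaurentSeries K) *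
    (1 + 9 * (h9K K S.N0 h9 : LaurentSeries K) + 27 * (h9K K S.N0 h9 : LaurentSeries K) ^ 2)) =
    (1 + 9 * (h9K K S.N0 h9 : LaurentSeries K)) ^ 3 *
      (1 + 243 * (h9K K S.N0 h9 : LaurentSeries K) + 2187 * (h9K K S.N0 h9 : LaurentSeries K) ^ 2 +
        6561 * (h9K K S.N0 h9 : LaurentSeries K) ^ 3) ^ 3
  rw [coe_j0, coe_h9K]
  exact jqModC_mul_h9 K

theorem runit_natCast {R : Subring S.F2} (hR : IsPt S.B R) {n : ℕ} (h : n.Coprime S.q) :
    RUnit R ((n : ℕ) : S.F2) := by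
  have := hR.runit_const (S.valuation_natCast_eq_one h)
  rwa [map_natCast] at this

theorem baseRel4 (h4 : 4 ∣ S.N0) (hq : ¬ 2 ∣ S.q) : S.BaseRel (baseData4 S.N0 S.q h4 hq) := by
  intro φ R hR
  rw [baseData4_xK]
  have h2 : RUnit R (2 : S.F2) := by
    have := S.runit_natCast hR (n := 2) ((Nat.Prime.coprime_iff_not_dvd Nat.prime_two).mpr hq)
    simpa using this
  have hrel := congrArg φ (S.j0_mul_h4 h4)
  simp only [map_mul, map_add, map_pow, map_one, map_ofNat] at hrel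
  have key := hR.locNor.fin_iff_level4 h2 hrel
  rw [← fin_iff]
  exact ⟨key.mpr, key.mp⟩

theorem baseRel9 (h9 : 9 ∣ S.N0) (hq : ¬ 3 ∣ S.q) : S.BaseRel (baseData9 S.N0 S.q h9 hq) := by
  intro φ R hR
  rw [baseData9_xK]
  have h3 : RUnit R (3 : S.F2) := by
    have := S.runit_natCast hR (n := 3) ((Nat.Prime.coprime_iff_not_dvd Nat.prime_three).mpr hq)
    simpa using this
  have hrel := congrArg φ (S.j0_mul_h9 h9)
  simp only [map_mul, map_add, map_pow, map_one, map_ofNat] at hrel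
  have key := hR.locNor.fin_iff_level9 h3 hrel
  rw [← fin_iff]
  exact ⟨key.mpr, key.mp⟩

/-- there is a base with `BaseRel`. -/
theorem exists_base (haux : if S.q = 2 then 9 ∣ S.N0 else 4 ∣ S.N0) :
    ∃ D : BaseData S.N0 S.q, S.BaseRel D := by
  split_ifs at haux with hq
  · exact ⟨_, S.baseRel9 haux (by rw [hq]; norm_num)⟩
  · refine ⟨_, S.baseRel4 haux fun h => hq ?_⟩
    exact ((Nat.prime_dvd_prime_iff_eq Nat.prime_two S.hq).mp h).symm

theorem j0_ne_zero : S.j0 ≠ 0 := by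
  intro h
  have h1 := congrArg (Subtype.val : S.F0 → LaurentSeries K) h
  rw [coe_j0] at h1
  exact (GAL.KLInputs.transcendental_jqModC K) (h1 ▸ isAlgebraic_zero)

variable {S} in
/-- transport of "finite or infinite" from `J` to `J''`, when each is integral over the other. -/
theorem fin_of_integral {R : Subring S.F2} (hR : IsPt S.B R) {J J'' : S.F2} (hJ0 : J ≠ 0)
    (h1 : J'' ∈ chart S.B.toSubring J) (h2 : J ∈ chart S.B.toSubring J'')
    (h : J ∈ R ∨ J⁻¹ ∈ rad R) : J'' ∈ R ∨ J''⁻¹ ∈ rad R := by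
  rcases h with h | h
  · exact Or.inl (Seidenberg.chart_le_of_mem_pt hR h _ h1)
  · exact Or.inr (inv_mem_rad_of_integral hR hJ0 h2 h)

variable (D : BaseData S.N0 S.q)

/-- `sym_ab`, with the integrality statements (block INT) as hypotheses. -/
theorem sym_ab_of (hib : S.ib S.j0 ∈ chart S.B.toSubring (S.ia S.j0))
    (hia : S.ia S.j0 ∈ chart S.B.toSubring (S.ib S.j0)) (h : S.BaseRel D) :
    ∀ R : Subring S.F2, IsPt S.B R →
    (S.ia (D.xK K) ∈ R ∨ (S.ia (D.xK K))⁻¹ ∈ R) → (S.ib (D.xK K) ∈ R ∨ (S.ib (D.xK K))⁻¹ ∈ R) := by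
  intro R hR hx
  have h0 : S.ia S.j0 ≠ 0 := (map_ne_zero S.ia).mpr S.j0_ne_zero
  exact (h S.ib R hR).2 (fin_of_integral hR h0 hib hia ((h S.ia R hR).1 hx))

/-- `sym_ba`, with the integrality statements (block INT) as hypotheses. -/
theorem sym_ba_of (hib : S.ib S.j0 ∈ chart S.B.toSubring (S.ia S.j0))
    (hia : S.ia S.j0 ∈ chart S.B.toSubring (S.ib S.j0)) (h : S.BaseRel D) :
    ∀ R : Subring S.F2, IsPt S.B R →
    (S.ib (D.xK K) ∈ R ∨ (S.ib (D.xK K))⁻¹ ∈ R) → (S.ia (D.xK K) ∈ R ∨ (S.ia (D.xK K))⁻¹ ∈ R) := by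
  intro R hR hx
  have h0 : S.ib S.j0 ≠ 0 := (map_ne_zero S.ib).mpr S.j0_ne_zero
  exact (h S.ia R hR).2 (fin_of_integral hR h0 hia hib ((h S.ib R hR).1 hx))

end Fermat.Agent.S36.Mod.Setup

end
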