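/-
S36, modular part, block INT (owner helper13): `j(z)`, `j(q z)`, `j(q² z)` are integral over each
other (over `A[j]` for EVERY subring `A` of `K`), from the modular equation (`Lib/ModEq`).

Main statements (namespace `Fermat.Agent.S36.Mod.Setup`):
* `ib_j_mem`, `ia_j_mem` (verbatim from `BAD/Model/WIP/Instance.lean`);
* `mid_j_mem_ia`, `mid_j_mem_ib`, `ia_j_mem_mid`, `ib_j_mem_mid` (`mid = al1 (be0 j0) = j(q z)`);
* level `N0 q`: `be0_j_mem`, `al0_j_mem`;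
* `sym_ab`, `sym_ba` (verbatim), from helper167's `sym_ab_of`, `sym_ba_of`;
* the equalities of charts `chart_ia_eq_ib`, `chart_ia_eq_mid`, `chart_al0_eq_be0`.
-/
import Fermat.Agent.S36.Mod.Base.Main
import Fermat.Agent.Lib.ModEq.Field
import Fermat.Agent.S36.BP.Build.ChartMap

set_option autoImplicit false
set_option linter.unusedSectionVars false

noncomputable section

namespace Fermat.Agent.S36.Mod.Setup

open ModularCurve Fermat.Agent.S24 Fermat.Agent.S18 Fermat.Agent.S36.BP Fermat.Agent.Lib.ModEq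
  Fermat.Agent.S36.BP.Build

variable {K K' : Type*} [Field K] [Field K'] [Algebra ℚ K] [Algebra ℚ K'] [Algebra K Kbar]
  [Algebra K' Kbar] (S : Setup K K')

/-! ### The five elements as generators `JK` -/

theorem int_j0_eq : S.j0 = JK K S.N0 1 (one_dvd _) := by
  apply Subtype.ext
  rw [coe_JK, Js, qExpand_one_apply]
  rfl

theorem int_al0_j0 : S.al0 S.j0 = JK K (S.N0 * S.q) 1 (one_dvd _) := by
  rw [int_j0_eq, al0, al_JK]

theorem int_be0_j0 :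
    S.be0 S.j0 = JK K (S.N0 * S.q) (1 * S.q) (Nat.mul_dvd_mul (one_dvd _) dvd_rfl) := by
  have h1 : S.q * 1 ∣ S.N0 * S.q := by rw [Nat.mul_one]; exact Dvd.intro_left _ rfl
  rw [int_j0_eq, be0, be_JK S.N0 S.q 1 _ h1]
  exact JK_congr K _ (Nat.mul_comm _ _) _ _

theorem int_ia_j0 : S.ia S.j0 = JK K (S.N0 * S.q * S.q) 1 (one_dvd _) := by
  rw [ia, AlgHom.comp_apply, int_al0_j0, al1, al_JK]

theorem int_mid_j0 : S.al1 (S.be0 S.j0) = JK K (S.N0 * S.q * S.q) (1 * S.q)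
    ((Nat.mul_dvd_mul (one_dvd _) dvd_rfl).mul_right _) := by
  rw [int_be0_j0, al1, al_JK]

theorem int_mid_j0' : S.be1 (S.al0 S.j0) = S.al1 (S.be0 S.j0) :=
  (al_be S.N0 S.q S.j0).symm

theorem int_ib_j0 : S.ib S.j0 = JK K (S.N0 * S.q * S.q) (1 * S.q * S.q)
    (Nat.mul_dvd_mul (Nat.mul_dvd_mul (one_dvd _) dvd_rfl) dvd_rfl) := by
  have h1 : S.q * (1 * S.q) ∣ S.N0 * S.q * S.q := by
    rw [Nat.mul_comm S.q (1 * S.q)]
    exact Nat.mul_dvd_mul (Nat.mul_dvd_mul (one_dvd _) dvd_rfl) dvd_rfl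
  rw [ib, AlgHom.comp_apply, int_be0_j0, be1, be_JK (S.N0 * S.q) S.q (1 * S.q) _ h1]
  exact JK_congr K _ (Nat.mul_comm _ _) _ _

/-! ### Integrality, over an arbitrary subring of constants -/

section Any

variable (A : Subring K)

/-- level `N0 q`: `j(q z)` is integral over `A[j(z)]`. -/
theorem be0_j_mem_of : S.be0 S.j0 ∈ chart A (S.al0 S.j0) := by
  rw [int_be0_j0, int_al0_j0]
  exact JK_mul_mem_chart K A S.q S.hq _ 1 _ _

/-- level `N0 q`: `j(z)` is integral over `A[j(q z)]`. -/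
theorem al0_j_mem_of : S.al0 S.j0 ∈ chart A (S.be0 S.j0) := by
  rw [int_be0_j0, int_al0_j0]
  exact JK_mem_chart_mul K A S.q S.hq _ 1 _ _

/-- `j(q z)` is integral over `A[j(z)]`. -/
theorem mid_j_mem_ia_of : S.al1 (S.be0 S.j0) ∈ chart A (S.ia S.j0) := by
  rw [int_mid_j0, int_ia_j0]
  exact JK_mul_mem_chart K A S.q S.hq _ 1 _ _

/-- `j(z)` is integral over `A[j(q z)]`. -/
theorem ia_j_mem_mid_of : S.ia S.j0 ∈ chart A (S.al1 (S.be0 S.j0)) := by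
  rw [int_mid_j0, int_ia_j0]
  exact JK_mem_chart_mul K A S.q S.hq _ 1 _ _

/-- `j(q² z)` is integral over `A[j(q z)]`. -/
theorem ib_j_mem_mid_of : S.ib S.j0 ∈ chart A (S.al1 (S.be0 S.j0)) := by
  rw [int_mid_j0, int_ib_j0]
  exact JK_mul_mem_chart K A S.q S.hq _ (1 * S.q) _ _

/-- `j(q z)` is integral over `A[j(q² z)]`. -/
theorem mid_j_mem_ib_of : S.al1 (S.be0 S.j0) ∈ chart A (S.ib S.j0) := by
  rw [int_mid_j0, int_ib_j0]
  exact JK_mem_chart_mul K A S.q S.hq _ (1 * S.q) _ _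

/-- `j(q² z)` is integral over `A[j(z)]`. -/
theorem ib_j_mem_of : S.ib S.j0 ∈ chart A (S.ia S.j0) :=
  chart_le_of_mem A (S.mid_j_mem_ia_of A) (S.ib_j_mem_mid_of A)

/-- `j(z)` is integral over `A[j(q² z)]`. -/
theorem ia_j_mem_of : S.ia S.j0 ∈ chart A (S.ib S.j0) :=
  chart_le_of_mem A (S.mid_j_mem_ib_of A) (S.ia_j_mem_mid_of A)

theorem chart_al0_eq_be0 : chart A (S.al0 S.j0) = chart A (S.be0 S.j0) :=
  chart_eq_of_mem A (S.be0_j_mem_of A) (S.al0_j_mem_of A)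

theorem chart_ia_eq_mid : chart A (S.ia S.j0) = chart A (S.al1 (S.be0 S.j0)) :=
  chart_eq_of_mem A (S.mid_j_mem_ia_of A) (S.ia_j_mem_mid_of A)

theorem chart_ia_eq_ib : chart A (S.ia S.j0) = chart A (S.ib S.j0) :=
  chart_eq_of_mem A (S.ib_j_mem_of A) (S.ia_j_mem_of A)

end Any

/-! ### The statements of the instance file -/

theorem ib_j_mem : S.ib S.j0 ∈ chart S.B.toSubring (S.ia S.j0) := S.ib_j_mem_of _

theorem ia_j_mem : S.ia S.j0 ∈ chart S.B.toSubring (S.ib S.j0) := S.ia_j_mem_of _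

theorem mid_j_mem_ia : S.al1 (S.be0 S.j0) ∈ chart S.B.toSubring (S.ia S.j0) := S.mid_j_mem_ia_of _

theorem mid_j_mem_ib : S.al1 (S.be0 S.j0) ∈ chart S.B.toSubring (S.ib S.j0) := S.mid_j_mem_ib_of _

theorem ia_j_mem_mid : S.ia S.j0 ∈ chart S.B.toSubring (S.al1 (S.be0 S.j0)) := S.ia_j_mem_mid_of _

theorem ib_j_mem_mid : S.ib S.j0 ∈ chart S.B.toSubring (S.al1 (S.be0 S.j0)) := S.ib_j_mem_mid_of _

theorem be0_j_mem : S.be0 S.j0 ∈ chart S.B.toSubring (S.al0 S.j0) := S.be0_j_mem_of _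

theorem al0_j_mem : S.al0 S.j0 ∈ chart S.B.toSubring (S.be0 S.j0) := S.al0_j_mem_of _

variable (D : BaseData S.N0 S.q)

theorem sym_ab (h : S.BaseRel D) : ∀ R : Subring S.F2, IsPt S.B R →
    (S.ia (D.xK K) ∈ R ∨ (S.ia (D.xK K))⁻¹ ∈ R) → (S.ib (D.xK K) ∈ R ∨ (S.ib (D.xK K))⁻¹ ∈ R) :=
  S.sym_ab_of D S.ib_j_mem S.ia_j_mem h

theorem sym_ba (h : S.BaseRel D) : ∀ R : Subring S.F2, IsPt S.B R →
    (S.ib (D.xK K) ∈ R ∨ (S.ib (D.xK K))⁻¹ ∈ R) → (S.ia (D.xK K) ∈ R ∨ (S.ia (D.xK K))⁻¹ ∈ R) :=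
  S.sym_ba_of D S.ib_j_mem S.ia_j_mem h

end Fermat.Agent.S36.Mod.Setup

end
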